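import Fermat.Agent.LittlewoodArgument.Derivative
import Fermat.Agent.XiProduct.ArgumentSmall

/-!
# The argument of `ζ` under the Riemann hypothesis

`S (t) ≪ log t / log log t`. Right of `u₀ = 1/2 + 1 / log ℓ` the smoothed formula is integrated;
left of it each zero gives at most twice its Poisson kernel at `u₀ + it`, times `u₀ - 1/2`.
-/

set_option autoImplicit false

noncomputable section

namespace FA.LittlewoodArgument

open Complex Filter Topology MeasureTheory Set FA.RiemannMangoldt FA.ExplicitFormula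
open FA.LiCriterion (fracTerm summable_norm_fracTerm xiLogDeriv_sub_eq)
open FA.LindelofZeros (lineTerm pois hasSum_lineTerm intervalIntegrable_pois integral_pois)
open FA.ZetaUpper
open scoped Real ArithmeticFunction.vonMangoldt

variable {u t δ : ℝ}

theorem hasDerivAt_logSum_line (x u t : ℝ) :
    HasDerivAt (fun v : ℝ => logSum x ((v : ℂ) + t * I))
      (-(smoothSum x ((u : ℂ) + t * I))) u := by
  have hlin : HasDerivAt (fun v : ℂ => v + t * I) 1 (u : ℂ) := (hasDerivAt_id' _).add_const _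
  have hd : HasDerivAt (logSum x) (-(smoothSum x ((u : ℂ) + t * I))) ((u : ℂ) + t * I) := by
    rw [smoothSum, ← Finset.sum_neg_distrib]
    refine HasDerivAt.fun_sum fun n hn => ?_
    rw [Finset.mem_Icc] at hn
    refine (((hasDerivAt_id' _).fun_neg.const_cpow
      (Or.inl (Nat.cast_ne_zero.2 (by omega)))).const_mul _).congr_deriv ?_
    rw [← Complex.natCast_log]
    rcases eq_or_ne n 1 with rfl | h1
    · simp
    have hl : Real.log n ≠ 0 := (Real.log_pos (Nat.one_lt_cast.2 (by omega))).ne'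
    obtain ⟨l, hl0⟩ : ∃ l, l = Real.log n := ⟨_, rfl⟩
    rw [← hl0] at hl ⊢
    have hl' : (l : ℂ) ≠ 0 := ofReal_ne_zero.2 hl
    push_cast
    field_simp
  simpa [Function.comp_def] using (hd.comp (u : ℂ) hlin).comp_ofReal

theorem hasDerivAt_negLogDeriv_line (hRH : Critical) (hu : 1 / 2 < u) (ht : t ≠ 0) :
    HasDerivAt (fun v : ℝ => negLogDeriv ((v : ℂ) + t * I))
      (deriv negLogDeriv ((u : ℂ) + t * I)) u := by
  have hlin : HasDerivAt (fun v : ℂ => v + t * I) 1 (u : ℂ) := (hasDerivAt_id' _).add_const _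
  have hd := (differentiableAt_negLogDeriv (s := (u : ℂ) + t * I) (by rw [line_re]; linarith)
    (line_ne_one ht u) (xiFn_ne_zero_of_gt hRH hu t)).hasDerivAt
  simpa [Function.comp_def] using (hd.comp (u : ℂ) hlin).comp_ofReal

theorem intervalIntegrable_negLogDeriv (hRH : Critical) (ht : t ≠ 0) {a b : ℝ} (ha : 1 / 2 < a)
    (hb : a ≤ b) :
    IntervalIntegrable (fun v : ℝ => negLogDeriv ((v : ℂ) + t * I)) volume a b := by
  refine ContinuousOn.intervalIntegrable fun v hv => ?_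
  rw [uIcc_of_le hb] at hv
  exact (hasDerivAt_negLogDeriv_line hRH (by linarith [hv.1]) ht).continuousAt.continuousWithinAt

theorem norm_logSum_le_sqrt {x : ℝ} (hx : 1 ≤ x) {s : ℂ} (hs : 1 / 2 ≤ s.re) :
    ‖logSum x s‖ ≤ Real.log x * ∑ n ∈ Finset.Icc 1 ⌊x⌋₊, Λ n / (√(n : ℝ) * Real.log n) := by
  refine (norm_logSum_le hx s).trans (mul_le_mul_of_nonneg_left ?_ (Real.log_nonneg hx))
  refine Finset.sum_le_sum fun n hn => ?_
  rw [Finset.mem_Icc] at hn
  rw [mul_comm (√(n : ℝ)), ← div_div, div_eq_mul_inv _ (√(n : ℝ))]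
  exact mul_le_mul_of_nonneg_left (rpow_neg_le_inv_sqrt hn.1 hs)
    (div_nonneg ArithmeticFunction.vonMangoldt_nonneg (Real.log_natCast_nonneg n))

/-- **The integral of `ζ'/ζ` from `u ≥ u₀`.** -/
theorem exists_integral_bound : ∃ C, 0 ≤ C ∧ (Critical → ∀ t : ℝ, 8 ≤ heightLog t →
    ∀ u : ℝ, shiftLine t ≤ u → u ≤ 7 / 4 →
      ‖∫ v in u..2, negLogDeriv ((v : ℂ) + t * I)‖ ≤
        C * (heightLog t / Real.log (heightLog t))) := by
  obtain ⟨C, hC, hform⟩ := exists_smooth_formula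
  obtain ⟨C₁, hC₁, hbound⟩ := exists_height_bound
  obtain ⟨K, hK, hsum⟩ := exists_mangoldt_sum_le
  obtain ⟨C₃, hC₃, hright⟩ := FA.PairCorrelation.exists_logDeriv_right
  refine ⟨2 * C + 2 * C₁ + 2 * K + C₃, by positivity, fun hRH t ht u hu hu2 => ?_⟩
  obtain ⟨hs0, hs1⟩ := shiftLine_mem ht
  have h7 := seven_le_abs ht
  have ht1 : 1 ≤ |t| := by linarith
  have ht0 := ne_zero_of_height ht
  have hu0 : 1 / 2 < u := by linarith
  obtain ⟨hF1, hN⟩ := hbound hRH t ht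
  obtain ⟨F, hF⟩ : ∃ F, F = (xiLogDeriv ((shiftLine t : ℂ) + t * I)).re := ⟨_, rfl⟩
  obtain ⟨l, hl⟩ : ∃ l, l = heightLog t := ⟨_, rfl⟩
  obtain ⟨m, hm⟩ : ∃ m, m = Real.log l := ⟨_, rfl⟩
  rw [← hl] at hN hF1 ⊢
  rw [← hF] at hF1
  rw [← hm]
  have hl8 : 8 ≤ l := hl ▸ ht
  have hm2 : 2 ≤ m := hm ▸ two_le_log_of_le hl8
  have hF0 : 0 ≤ F := hF ▸ re_xiLogDeriv_line_nonneg hRH hs0 t
  have hgap : shiftLine t - 1 / 2 = 1 / m := by rw [shiftLine, ← hl, ← hm]; ring
  obtain ⟨x, hx⟩ : ∃ x, x = l ^ 2 := ⟨_, rfl⟩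
  have hx1 : 1 ≤ x := hx ▸ one_le_pow₀ (by linarith)
  have hx3 : 3 ≤ x := by
    rw [hx]
    nlinarith
  have hlx : Real.log x = 2 * m := by rw [hx, Real.log_pow, hm]; norm_num
  obtain ⟨H, hH⟩ : ∃ H : ℝ → ℂ, H = fun v : ℝ => negLogDeriv ((v : ℂ) + t * I) +
      logSum x ((v : ℂ) + t * I) + ((2 * m : ℝ) : ℂ) *
        ∫ w in u..v, negLogDeriv ((w : ℂ) + t * I) := ⟨_, rfl⟩
  have hd : ∀ v : ℝ, u ≤ v → HasDerivAt H (deriv negLogDeriv ((v : ℂ) + t * I) +
      -(smoothSum x ((v : ℂ) + t * I)) + ((2 * m : ℝ) : ℂ) * negLogDeriv ((v : ℂ) + t * I)) v :=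
    fun v hv => by
    rw [hH]
    refine ((hasDerivAt_negLogDeriv_line hRH (by linarith) ht0).fun_add
      (hasDerivAt_logSum_line x v t)).fun_add (HasDerivAt.const_mul _ ?_)
    have hc : ContinuousOn (fun w : ℝ => negLogDeriv ((w : ℂ) + t * I)) (Ioi (1 / 2)) :=
      fun w hw =>
        (hasDerivAt_negLogDeriv_line hRH hw ht0).continuousAt.continuousWithinAt
    exact intervalIntegral.integral_hasDerivAt_right
      (intervalIntegrable_negLogDeriv hRH ht0 hu0 hv)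
      (hc.stronglyMeasurableAtFilter isOpen_Ioi v (show 1 / 2 < v by linarith))
      (hasDerivAt_negLogDeriv_line hRH (by linarith) ht0).continuousAt
  have hB : ∀ v : ℝ, HasDerivAt (fun w => C * (w - u) + F / 2 * (x ^ (1 / 2 - u) -
      x ^ (1 / 2 - w))) (C + F * m * x ^ (1 / 2 - v)) v := fun v => by
    have e1 : HasDerivAt (fun w : ℝ => x ^ (1 / 2 - w)) (-(2 * m) * x ^ (1 / 2 - v)) v :=
      (((hasDerivAt_id' v).const_sub (1 / 2)).const_rpow (by linarith)).congr_deriv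
        (by rw [hlx]; ring)
    exact ((((hasDerivAt_id' v).sub_const u).const_mul C).fun_add
      ((e1.const_sub _).const_mul (F / 2))).congr_deriv (by ring)
  have hend := image_norm_le_of_norm_deriv_right_le_deriv_boundary
    (f := fun v => H v - H u) (a := u) (b := 7 / 4)
    (B := fun w => C * (w - u) + F / 2 * (x ^ (1 / 2 - u) - x ^ (1 / 2 - w)))
    (fun v hv => ((hd v hv.1).sub_const (H u)).continuousAt.continuousWithinAt)
    (fun v hv => ((hd v hv.1).sub_const (H u)).hasDerivWithinAt) (by simp) hB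
    (fun v hv => ?_) (right_mem_Icc.2 hu2)
  swap
  · have h1 := hform x v t hx1 (by linarith [hv.1]) hv.2.le ht1
      (hx ▸ hl ▸ sq_height_le ht) (xiFn_ne_zero_of_gt hRH (by linarith [hv.1]) t)
    have h2 := norm_tsum_zeroKer_le hRH hx1 hs0 (hu.trans hv.1) t
    rw [← hF, hgap, div_div_eq_mul_div, div_one] at h2
    rw [hlx] at h1
    obtain ⟨s, hs⟩ : ∃ s : ℂ, s = (v : ℂ) + t * I := ⟨_, rfl⟩
    rw [← hs] at h1 h2 ⊢
    calc ‖deriv negLogDeriv s + -smoothSum x s + ((2 * m : ℝ) : ℂ) * negLogDeriv s‖ =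
          ‖(((2 * m : ℝ) : ℂ) * negLogDeriv s + deriv negLogDeriv s - ∑' ρ, zeroKer x s ρ -
            smoothSum x s) + ∑' ρ, zeroKer x s ρ‖ := by congr 1; ring
      _ ≤ C + F * m * x ^ (1 / 2 - v) := (norm_add_le _ _).trans (by linarith)
  have hx0 : 0 ≤ x ^ (1 / 2 - (7 / 4 : ℝ)) := Real.rpow_nonneg (by linarith) _
  have hxu : x ^ (1 / 2 - u) ≤ 1 := Real.rpow_le_one_of_one_le_of_nonpos hx1 (by linarith)
  have hlog : ∀ v : ℝ, 1 / 2 ≤ v → ‖logSum x ((v : ℂ) + t * I)‖ ≤ K * l := fun v hv => by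
    refine (norm_logSum_le_sqrt hx1 (by rw [line_re]; exact hv)).trans
      ((mul_le_mul_of_nonneg_left (hsum x hx3) (Real.log_nonneg hx1)).trans (le_of_eq ?_))
    rw [hx, Real.sqrt_sq (by linarith), ← hx, hlx]
    field_simp
  obtain ⟨J, hJ⟩ : ∃ J, J = ∫ w in u..(7 / 4 : ℝ), negLogDeriv ((w : ℂ) + t * I) := ⟨_, rfl⟩
  have hI : ‖((2 * m : ℝ) : ℂ) * J‖ ≤ 2 * C + F / 2 + 2 * (K * l) + 2 * (C₁ * l) := by
    have e : ((2 * m : ℝ) : ℂ) * J = (H (7 / 4) - H u) +
        (negLogDeriv ((u : ℂ) + t * I) - negLogDeriv (((7 / 4 : ℝ) : ℂ) + t * I)) +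
        (logSum x ((u : ℂ) + t * I) - logSum x (((7 / 4 : ℝ) : ℂ) + t * I)) := by
      rw [hH, hJ]
      dsimp only
      rw [intervalIntegral.integral_same]
      push_cast
      ring
    rw [e]
    have hC' : C * (7 / 4 - u) ≤ 2 * C := by
      rw [mul_comm 2 C]
      exact mul_le_mul_of_nonneg_left (by linarith) hC
    have hF' : F / 2 * (x ^ (1 / 2 - u) - x ^ (1 / 2 - (7 / 4 : ℝ))) ≤ F / 2 :=
      mul_le_of_le_one_right (by linarith) (by linarith)
    refine norm_add₃_le.trans (add_le_add (add_le_add (hend.trans ?_) ?_) ?_ |>.trans (le_of_eq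
      (show (2 * C + F / 2) + 2 * (C₁ * l) + 2 * (K * l) = _ by ring)))
    · linarith
    · exact (norm_sub_le _ _).trans
        (by linarith [hN u hu hu2, hN (7 / 4) (by linarith) le_rfl])
    · exact (norm_sub_le _ _).trans
        (by linarith [hlog u hu0.le, hlog (7 / 4) (by norm_num)])
  rw [norm_mul, Complex.norm_real, Real.norm_eq_abs, abs_of_pos (show 0 < 2 * m by linarith)] at hI
  rw [← intervalIntegral.integral_add_adjacent_intervals
    (intervalIntegrable_negLogDeriv hRH ht0 hu0 hu2)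
    (intervalIntegrable_negLogDeriv hRH ht0 (show (1 / 2 : ℝ) < 7 / 4 by norm_num) (by norm_num)),
    ← hJ]
  have hR : ‖∫ v in (7 / 4 : ℝ)..2, negLogDeriv ((v : ℂ) + t * I)‖ ≤ C₃ := by
    refine (intervalIntegral.norm_integral_le_of_norm_le_const (C := C₃) fun v hv => ?_).trans ?_
    · rw [uIoc_of_le (by norm_num)] at hv
      rw [negLogDeriv_line hRH (by linarith [hv.1]) ht0, norm_neg]
      exact hright _ (by rw [line_re]; linarith [hv.1]) (by rw [line_re]; linarith [hv.2])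
    · rw [abs_of_nonneg (by norm_num)]
      linarith
  have hq : 1 ≤ l / m := by
    rw [le_div_iff₀ (by linarith), one_mul, hm]
    exact Real.log_le_self (by linarith)
  have hJle : ‖J‖ ≤ (2 * C + 2 * C₁ + 2 * K) * (l / m) := by
    rw [mul_div_assoc', le_div_iff₀ (by linarith)]
    linarith [mul_nonneg hC (show 0 ≤ l - 1 by linarith), mul_nonneg hC₁ (show 0 ≤ l by linarith),
      mul_nonneg hK (show 0 ≤ l by linarith), mul_nonneg hC (show 0 ≤ l by linarith)]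
  refine (norm_add_le _ _).trans ?_
  linarith [mul_le_mul_of_nonneg_left hq hC₃]

theorem abs_pois_sub_le {d y : ℝ} (hd : d ≠ 0) (hy : 0 ≤ y) (hyδ : y ≤ δ) :
    |pois d δ - pois d y| ≤ δ ^ 2 / (δ ^ 2 + d ^ 2) * pois |d| y := by
  have h1 : 0 < d ^ 2 + δ ^ 2 := by positivity
  have h2 : 0 < d ^ 2 + y ^ 2 := by positivity
  have h3 : y ^ 2 ≤ δ ^ 2 := pow_le_pow_left₀ hy hyδ 2
  rw [pois, pois, pois, div_sub_div _ _ h1.ne' h2.ne', abs_div, abs_of_pos (mul_pos h1 h2),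
    div_mul_div_comm, sq_abs, add_comm (δ ^ 2)]
  refine div_le_div_of_nonneg_right ?_ (by positivity)
  rw [show d * (d ^ 2 + y ^ 2) - (d ^ 2 + δ ^ 2) * d = d * (y ^ 2 - δ ^ 2) by ring, abs_mul,
    mul_comm (δ ^ 2)]
  refine mul_le_mul_of_nonneg_left ?_ (abs_nonneg d)
  rw [abs_le]
  constructor <;> linarith [sq_nonneg y]

theorem im_fracTerm (v t : ℝ) (ρ : ℂ) :
    (fracTerm ((v : ℂ) + t * I) ρ).im =
      (zeroWeight ρ : ℝ) * (-pois (t - ρ.im) (v - ρ.re) + (ρ⁻¹).im) := by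
  rw [fracTerm, ← ofReal_natCast, im_ofReal_mul, add_im, FA.XiProduct.im_inv_sub]

/-- **Next to the critical line.** -/
theorem abs_integral_near_le (hRH : Critical) (hδ : 0 < δ) (hδ1 : δ ≤ 1)
    (hord : ∀ ρ, xiFn ρ = 0 → ρ.im ≠ t) :
    |∫ v in (1 / 2 : ℝ)..1 / 2 + δ, ((xiLogDeriv ((v : ℂ) + t * I)).im -
        (xiLogDeriv (((1 / 2 + δ : ℝ) : ℂ) + t * I)).im)| ≤
      2 * δ * (xiLogDeriv (((1 / 2 + δ : ℝ) : ℂ) + t * I)).re := by
  classical
  obtain ⟨u₀, hu₀⟩ : ∃ u₀, u₀ = 1 / 2 + δ := ⟨_, rfl⟩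
  rw [← hu₀]
  obtain ⟨S, hS⟩ : ∃ S, S = zerosUpTo (|t| + 1) := ⟨_, rfl⟩
  have hxi : ∀ v : ℝ, xiFn ((v : ℂ) + t * I) ≠ 0 := fun v h => hord _ h (line_im v t)
  have hlt := hasSum_lineTerm (hxi u₀)
  obtain ⟨F, hF⟩ : ∃ F, F = (xiLogDeriv ((u₀ : ℂ) + t * I)).re := ⟨_, rfl⟩
  rw [← hF] at hlt ⊢
  have hnn : ∀ ρ, 0 ≤ lineTerm u₀ t ρ := fun ρ => by
    by_cases hρ : xiFn ρ = 0
    · rw [lineTerm, pois, hRH ρ hρ]
      exact mul_nonneg (Nat.cast_nonneg _) (div_nonneg (by linarith) (by positivity))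
    · simp [lineTerm, zeroWeight_eq_zero hρ]
  have hle := sum_le_hasSum S (fun ρ _ => hnn ρ) hlt
  have hδt : ∀ ρ, xiFn ρ = 0 → δ * lineTerm u₀ t ρ =
      (zeroWeight ρ : ℝ) * (δ ^ 2 / (δ ^ 2 + (t - ρ.im) ^ 2)) := fun ρ hρ => by
    rw [lineTerm, pois, hRH ρ hρ, hu₀, add_sub_cancel_left]
    ring
  obtain ⟨bound, hbound⟩ : ∃ b : ℝ → ℝ, b = fun v : ℝ =>
      ∑ ρ ∈ S, δ * lineTerm u₀ t ρ * pois |t - ρ.im| (v - 1 / 2) +
        δ * (F - ∑ ρ ∈ S, lineTerm u₀ t ρ) := ⟨_, rfl⟩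
  have key : ∀ v ∈ Ioc (1 / 2) u₀, ‖(xiLogDeriv ((v : ℂ) + t * I)).im -
      (xiLogDeriv ((u₀ : ℂ) + t * I)).im‖ ≤ bound v := by
    intro v hv
    have h1 := Complex.hasSum_im (((summable_norm_fracTerm ((v : ℂ) + t * I)).of_norm.hasSum).sub
      ((summable_norm_fracTerm ((u₀ : ℂ) + t * I)).of_norm.hasSum))
    rw [← xiLogDeriv_sub_eq (hxi v), ← xiLogDeriv_sub_eq (hxi u₀), sub_sub_sub_cancel_right,
      sub_im] at h1
    obtain ⟨f, hf⟩ : ∃ f : ℂ → ℝ, f = fun ρ =>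
      (fracTerm ((v : ℂ) + t * I) ρ - fracTerm ((u₀ : ℂ) + t * I) ρ).im := ⟨_, rfl⟩
    rw [← hf] at h1
    have hfb : ∀ ρ, |f ρ| ≤ δ * lineTerm u₀ t ρ * pois |t - ρ.im| (v - 1 / 2) := fun ρ => by
      by_cases hρ : xiFn ρ = 0
      swap
      · simp [hf, fracTerm, lineTerm, zeroWeight_eq_zero hρ]
      rw [hδt ρ hρ, hf]
      dsimp only
      rw [sub_im, im_fracTerm, im_fracTerm, hRH ρ hρ, hu₀, add_sub_cancel_left, ← mul_sub,
        add_sub_add_right_eq_sub, neg_sub_neg, abs_mul, Nat.abs_cast, mul_assoc]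
      exact mul_le_mul_of_nonneg_left (abs_pois_sub_le (sub_ne_zero.2 (hord ρ hρ).symm)
        (by linarith [hv.1]) (by linarith [hv.2])) (Nat.cast_nonneg _)
    have hfar : ∀ ρ, ρ ∉ S → |f ρ| ≤ δ * lineTerm u₀ t ρ := fun ρ hρS => by
      refine (hfb ρ).trans ?_
      by_cases hρ : xiFn ρ = 0
      swap
      · simp [lineTerm, zeroWeight_eq_zero hρ]
      rw [hS, mem_zerosUpTo, not_and, not_le] at hρS
      have hd : 1 ≤ |t - ρ.im| := by
        linarith [hρS hρ, abs_sub_abs_le_abs_sub ρ.im t, abs_sub_comm ρ.im t]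
      refine mul_le_of_le_one_right (mul_nonneg hδ.le (hnn ρ)) ?_
      rw [pois, div_le_one (by positivity)]
      nlinarith [sq_nonneg (v - 1 / 2)]
    have h2 : HasSum (fun ρ => if ρ ∈ S then f ρ else 0) (∑ ρ ∈ S, f ρ) := by
      have := hasSum_sum_of_ne_finset_zero (L := SummationFilter.unconditional ℂ) (s := S)
        (f := fun ρ => if ρ ∈ S then f ρ else 0) fun b hb => if_neg hb
      rwa [Finset.sum_congr rfl fun ρ hρ => if_pos hρ] at this
    have h3 : HasSum (fun ρ => if ρ ∈ S then lineTerm u₀ t ρ else 0)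
        (∑ ρ ∈ S, lineTerm u₀ t ρ) := by
      have := hasSum_sum_of_ne_finset_zero (L := SummationFilter.unconditional ℂ) (s := S)
        (f := fun ρ => if ρ ∈ S then lineTerm u₀ t ρ else 0) fun b hb => if_neg hb
      rwa [Finset.sum_congr rfl fun ρ hρ => if_pos hρ] at this
    have h4 := tsum_of_norm_bounded ((hlt.sub h3).mul_left δ)
      (f := fun ρ => f ρ - if ρ ∈ S then f ρ else 0) fun ρ => by
        split_ifs with h
        · simp
        · simpa [Real.norm_eq_abs] using hfar ρ h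
    rw [(h1.sub h2).tsum_eq, Real.norm_eq_abs] at h4
    rw [Real.norm_eq_abs, hbound]
    have h5 : |∑ ρ ∈ S, f ρ| ≤ ∑ ρ ∈ S, δ * lineTerm u₀ t ρ * pois |t - ρ.im| (v - 1 / 2) :=
      (Finset.abs_sum_le_sum_abs _ _).trans (Finset.sum_le_sum fun ρ _ => hfb ρ)
    calc _ ≤ |(xiLogDeriv ((v : ℂ) + t * I)).im - (xiLogDeriv ((u₀ : ℂ) + t * I)).im -
          ∑ ρ ∈ S, f ρ| + |∑ ρ ∈ S, f ρ| :=
          le_trans (le_of_eq (by rw [sub_add_cancel])) (abs_add_le _ _)
      _ ≤ _ := by linarith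
  have hi : ∀ ρ, IntervalIntegrable
      (fun v => δ * lineTerm u₀ t ρ * pois |t - ρ.im| (v - 1 / 2)) volume (1 / 2) u₀ :=
    fun ρ => (intervalIntegrable_pois _ _ _ _).const_mul _
  have hsum : IntervalIntegrable
      (fun v => ∑ ρ ∈ S, δ * lineTerm u₀ t ρ * pois |t - ρ.im| (v - 1 / 2)) volume (1 / 2) u₀ := by
    have := IntervalIntegrable.sum S (f := fun ρ v =>
      δ * lineTerm u₀ t ρ * pois |t - ρ.im| (v - 1 / 2)) fun ρ _ => hi ρ
    rwa [Finset.sum_fn] at this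
  rw [← Real.norm_eq_abs]
  refine (intervalIntegral.norm_integral_le_of_norm_le (by linarith)
    (Eventually.of_forall key) (hbound ▸ hsum.add intervalIntegrable_const)).trans ?_
  rw [hbound, intervalIntegral.integral_add hsum intervalIntegrable_const,
    intervalIntegral.integral_finsetSum fun ρ _ => hi ρ, intervalIntegral.integral_const]
  have h6 : ∑ ρ ∈ S, ∫ v in (1 / 2 : ℝ)..u₀, δ * lineTerm u₀ t ρ * pois |t - ρ.im| (v - 1 / 2) ≤
      2 * δ * ∑ ρ ∈ S, lineTerm u₀ t ρ := by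
    rw [Finset.mul_sum]
    refine Finset.sum_le_sum fun ρ _ => ?_
    rw [intervalIntegral.integral_const_mul, integral_pois, mul_comm 2 δ, mul_right_comm δ 2]
    refine mul_le_mul_of_nonneg_left ?_ (mul_nonneg hδ.le (hnn ρ))
    rw [FA.LindelofZeros.kern, sub_self, zero_div, Real.arctan_zero, sub_zero]
    linarith [Real.arctan_lt_pi_div_two ((u₀ - 1 / 2) / |t - ρ.im|), Real.pi_le_four]
  rw [smul_eq_mul, hu₀, add_sub_cancel_left, ← hu₀]
  have : δ * (δ * (F - ∑ ρ ∈ S, lineTerm u₀ t ρ)) ≤ δ * (2 * (F - ∑ ρ ∈ S, lineTerm u₀ t ρ)) :=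
    mul_le_mul_of_nonneg_left (mul_le_mul_of_nonneg_right (by linarith) (by linarith)) hδ.le
  linarith

/-- **Littlewood's bound for the argument.** -/
theorem exists_horArg_littlewood : ∃ C, 0 ≤ C ∧ (Critical → ∀ t : ℝ, 8 ≤ heightLog t →
    (∀ ρ, xiFn ρ = 0 → ρ.im ≠ t) →
      |FA.XiProduct.horArg t| ≤ C * (heightLog t / Real.log (heightLog t))) := by
  obtain ⟨C₁, hC₁, hbound⟩ := exists_height_bound
  obtain ⟨C₂, hC₂, hint⟩ := exists_integral_bound
  refine ⟨3 * C₁ + C₂ + 42, by positivity, fun hRH t ht hord => ?_⟩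
  obtain ⟨hs0, hs1⟩ := shiftLine_mem ht
  have ht0 := ne_zero_of_height ht
  have ht1 : 1 ≤ |t| := by linarith [seven_le_abs ht]
  obtain ⟨hF, hN⟩ := hbound hRH t ht
  have hI := hint hRH t ht _ le_rfl (by linarith)
  obtain ⟨l, hl⟩ : ∃ l, l = heightLog t := ⟨_, rfl⟩
  obtain ⟨δ, hδ⟩ : ∃ δ, δ = 1 / Real.log l := ⟨_, rfl⟩
  rw [← hl] at hI hF hN ⊢
  have hl8 : 8 ≤ l := hl ▸ ht
  have hm2 := two_le_log_of_le hl8
  have hδ0 : 0 < δ := hδ ▸ by positivity
  have hu₀ : shiftLine t = 1 / 2 + δ := by rw [hδ, hl, shiftLine]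
  have hδ1 : δ ≤ 1 := by linarith
  have hq : 1 ≤ l / Real.log l := by
    rw [le_div_iff₀ (by linarith), one_mul]
    exact Real.log_le_self (by linarith)
  have hnear := abs_integral_near_le hRH hδ0 hδ1 hord
  rw [← hu₀] at hnear
  have hrest : ∀ v : ℝ, 1 / 2 ≤ v → v ≤ 2 →
      |(xiLogDeriv ((v : ℂ) + t * I)).im + (negLogDeriv ((v : ℂ) + t * I)).im| ≤ 14 :=
    fun v h1 h2 => by
    have hg := FA.PairCorrelation.norm_gammaReg_sub_log_le (s := (v : ℂ) + t * I)
      (by rw [line_re]; linarith) (by rw [line_re]; linarith)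
    have h3 := (abs_im_le_norm _).trans hg
    rw [sub_im, ofReal_im, sub_zero] at h3
    have h4 := (abs_im_le_norm _).trans
      (norm_inv_sub_one_le (s := (v : ℂ) + t * I) one_pos (Or.inl (by rwa [line_im])))
    rw [negLogDeriv, add_im, add_im, neg_im]
    rw [one_div_one] at h4
    rw [abs_le] at h3 h4 ⊢
    constructor <;> linarith
  have hxc : Continuous fun v : ℝ => (xiLogDeriv ((v : ℂ) + t * I)).im :=
    continuous_iff_continuousAt.2 fun v => continuous_im.continuousAt.comp'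
      (ContinuousAt.comp' (g := xiLogDeriv)
        (continuousAt_xiLogDeriv fun h => hord _ h (line_im v t)) (by fun_prop))
  rw [intervalIntegral.integral_sub (hxc.intervalIntegrable _ _) intervalIntegrable_const,
    intervalIntegral.integral_const, smul_eq_mul,
    show shiftLine t - 1 / 2 = δ by rw [hu₀]; ring] at hnear
  have hc0 : |δ * (xiLogDeriv ((shiftLine t : ℂ) + t * I)).im| ≤
      C₁ * (l / Real.log l) + 14 := by
    rw [abs_mul, abs_of_pos hδ0]
    have h1 := hrest _ hs0.le (by linarith)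
    have h2 := (abs_im_le_norm _).trans (hN _ le_rfl (by linarith))
    have h3 : |(xiLogDeriv ((shiftLine t : ℂ) + t * I)).im| ≤ C₁ * l + 14 := by
      rw [abs_le] at h1 h2 ⊢
      constructor <;> linarith
    refine (mul_le_mul_of_nonneg_left h3 hδ0.le).trans ?_
    rw [show C₁ * (l / Real.log l) = δ * (C₁ * l) by rw [hδ]; ring]
    linarith
  have hnear' : 2 * δ * (xiLogDeriv ((shiftLine t : ℂ) + t * I)).re ≤
      2 * C₁ * (l / Real.log l) := by
    rw [show 2 * C₁ * (l / Real.log l) = 2 * δ * (C₁ * l) by rw [hδ]; ring]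
    exact mul_le_mul_of_nonneg_left hF (by linarith)
  have hni := intervalIntegrable_negLogDeriv hRH ht0 hs0 (show shiftLine t ≤ 2 by linarith)
  have hIm : IntervalIntegrable (fun v : ℝ => (negLogDeriv ((v : ℂ) + t * I)).im) volume
      (shiftLine t) 2 := ⟨hni.1.im, hni.2.im⟩
  have hright : |(∫ v in shiftLine t..2, (xiLogDeriv ((v : ℂ) + t * I)).im) +
      (∫ v in shiftLine t..2, negLogDeriv ((v : ℂ) + t * I)).im| ≤ 28 := by
    rw [show (∫ v in shiftLine t..2, negLogDeriv ((v : ℂ) + t * I)).im =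
        ∫ v in shiftLine t..2, (negLogDeriv ((v : ℂ) + t * I)).im from
      (imCLM.intervalIntegral_comp_comm hni).symm,
      ← intervalIntegral.integral_add (hxc.intervalIntegrable _ _) hIm, ← Real.norm_eq_abs]
    refine (intervalIntegral.norm_integral_le_of_norm_le_const (C := 14) fun v hv => ?_).trans ?_
    · rw [uIoc_of_le (by linarith)] at hv
      exact hrest v (by linarith [hv.1]) hv.2
    · rw [abs_of_nonneg (by linarith)]
      linarith
  have hI' := (abs_im_le_norm _).trans hI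
  rw [FA.XiProduct.horArg, ← intervalIntegral.integral_add_adjacent_intervals
    (b := shiftLine t) (hxc.intervalIntegrable _ _) (hxc.intervalIntegrable _ _)]
  rw [abs_le] at hnear hc0 hright hI' ⊢
  constructor <;> linarith

end FA.LittlewoodArgument

end
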