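import Fermat.Agent.LittlewoodArgument.Argument

/-!
# Littlewood's theorem on `N (T)` under the Riemann hypothesis

`N (T) = mainTerm T + O (log T / log log T)`; so every interval `(T, T + C / log log T]` holds an
ordinate and the zero at the height `γ` has multiplicity `≪ log γ / log log γ`.
-/

set_option autoImplicit false

noncomputable section

namespace FA.LittlewoodArgument

open Complex Filter Topology Set FA.RiemannMangoldt FA.ExplicitFormula FA.XiProduct
open FA.ZetaUpper (Critical)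
open scoped Real

/-- `log t / log log t`. -/
def logRatio (t : ℝ) : ℝ := Real.log t / Real.log (Real.log t)

variable {T T' : ℝ}

theorem eight_le_log (hT : Real.exp 8 ≤ T) : 8 ≤ Real.log T ∧ 2 ≤ Real.log (Real.log T) := by
  have h : 8 ≤ Real.log T :=
    (Real.le_log_iff_exp_le (lt_of_lt_of_le (Real.exp_pos _) hT)).2 hT
  exact ⟨h, two_le_log_of_le h⟩

theorem one_le_logRatio (hT : Real.exp 8 ≤ T) : 1 ≤ logRatio T := by
  obtain ⟨h1, h2⟩ := eight_le_log hT
  rw [logRatio, le_div_iff₀ (by linarith), one_mul]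
  exact Real.log_le_self (by linarith)

theorem heightLog_bounds (hT : Real.exp 8 ≤ T) (h1 : T ≤ T') (h2 : T' ≤ T + 1) :
    8 ≤ heightLog T' ∧ heightLog T' / Real.log (heightLog T') ≤ 2 * logRatio T := by
  obtain ⟨hl, hll⟩ := eight_le_log hT
  have hT9 : 9 ≤ T := le_trans (by linarith [Real.add_one_le_exp (8 : ℝ)]) hT
  have hlow : Real.log T ≤ heightLog T' := by
    rw [heightLog, abs_of_pos (by linarith)]
    exact Real.log_le_log (by linarith) (by linarith)
  have hup : heightLog T' ≤ 2 * Real.log T := by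
    rw [heightLog, abs_of_pos (by linarith),
      show 2 * Real.log T = Real.log (T ^ 2) by rw [Real.log_pow]; norm_num]
    exact Real.log_le_log (by linarith) (by nlinarith)
  refine ⟨hl.trans hlow, ?_⟩
  rw [logRatio, mul_div_assoc']
  exact div_le_div₀ (by linarith) hup (by linarith) (Real.log_le_log (by linarith) hlow)

/-- **The count.** -/
theorem exists_zeroCount_littlewood : ∃ C, 0 ≤ C ∧ (Critical → ∀ᶠ T : ℝ in atTop,
    |(zeroCount T : ℝ) - mainTerm T| ≤ C * logRatio T) := by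
  obtain ⟨C, hC, hhor⟩ := exists_horArg_littlewood
  obtain ⟨D, hD⟩ : ∃ D, D = |(∫ u in (-1 : ℝ)..2, xiLogDeriv (u : ℂ)).im| + 30 := ⟨_, rfl⟩
  have hD0 : 0 ≤ D := hD ▸ by positivity
  refine ⟨D + 4 * C + 1, by positivity, fun hRH => ?_⟩
  filter_upwards [eventually_ge_atTop (Real.exp 8)] with T hT
  have hT9 : 9 ≤ T := le_trans (by linarith [Real.add_one_le_exp (8 : ℝ)]) hT
  obtain ⟨A, hA⟩ : ∃ A : Set ℝ, A = Complex.im '' zetaZeros (T + 1) := ⟨_, rfl⟩
  have hAf : A.Finite := hA ▸ (finite_zetaZeros _).image _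
  have hev : ∀ᶠ x in 𝓝[>] T, ∀ a ∈ A, a ≤ T ∨ x < a := by
    rw [hAf.eventually_all]
    intro a _
    rcases le_or_gt a T with ha | ha
    · exact Eventually.of_forall fun _ => Or.inl ha
    · exact ((eventually_lt_nhds ha).filter_mono nhdsWithin_le_nhds).mono fun _ hx => Or.inr hx
  have hmain : ∀ᶠ x in 𝓝 T, |mainTerm x - mainTerm T| < 1 := by
    have hc : ContinuousAt mainTerm T := by
      unfold mainTerm
      exact ((continuousAt_id.div_const _).mul ((continuousAt_id.div_const _).log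
        (div_ne_zero (show T ≠ 0 by linarith) (by positivity)))).sub (continuousAt_id.div_const _)
    exact Metric.tendsto_nhds.1 hc 1 one_pos
  obtain ⟨T', ⟨⟨hgap, hmT⟩, hT'⟩, hgt⟩ := (((hev.and (hmain.filter_mono nhdsWithin_le_nhds)).and
    ((eventually_lt_nhds (show T < T + 1 by linarith)).filter_mono nhdsWithin_le_nhds)).and
      self_mem_nhdsWithin).exists
  replace hgt : T < T' := hgt
  have hord : ∀ ρ, xiFn ρ = 0 → ρ.im ≠ T' := fun ρ hρ him => by
    have hm : ρ.im ∈ A := hA ▸ ⟨ρ, mem_zetaZeros_iff.2 ⟨hρ, by linarith, by linarith⟩, rfl⟩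
    rcases hgap _ hm with h1 | h1 <;> linarith
  have hN : zeroCount T' = zeroCount T := by
    refine le_antisymm ?_ (zeroCount_mono hgt.le)
    refine Finset.sum_le_sum_of_subset fun ρ hρ => ?_
    rw [Set.Finite.mem_toFinset] at hρ ⊢
    obtain ⟨h1, h2, h3, h4, h5⟩ := hρ
    refine ⟨h1, h2, h3, h4, ?_⟩
    by_contra hlt
    have hm : ρ.im ∈ A := hA ▸ ⟨ρ, ⟨h1, h2, h3, h4, by linarith⟩, rfl⟩
    rcases hgap _ hm with h6 | h6 <;> linarith
  have hneg : ∀ ρ, xiFn ρ = 0 → ρ.im ≠ -T' := fun ρ hρ h =>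
    hord (1 - ρ) (by rw [xiFn_one_sub, hρ]) (by simp [h])
  have h := (edgeSum_xiLogDeriv (by linarith) hord).symm.trans (edgeSum_reflect hord)
  rw [im_integral_eq_horArg hord, im_integral_eq_horArg hneg, horArg_neg, hN] at h
  have hv := abs_vertical_sub_le (T := T') (by linarith)
  obtain ⟨hb1, hb2⟩ := heightLog_bounds hT hgt.le hT'.le
  have h1 := (hhor hRH T' hb1 hord).trans (mul_le_mul_of_nonneg_left hb2 hC)
  have e : T' * Real.log (T' / (2 * π)) - T' = 2 * π * mainTerm T' := by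
    have := Real.pi_ne_zero
    rw [mainTerm]
    field_simp
  rw [e] at hv
  have hD0' := neg_abs_le (∫ u in (-1 : ℝ)..2, xiLogDeriv (u : ℂ)).im
  have hD1 := le_abs_self (∫ u in (-1 : ℝ)..2, xiLogDeriv (u : ℂ)).im
  have hb : |2 * π * ((zeroCount T : ℝ) - mainTerm T')| ≤ D + 2 * (C * (2 * logRatio T)) := by
    rw [abs_le] at hv h1 ⊢
    constructor <;> linarith
  rw [abs_mul, abs_of_pos (show 0 < 2 * π by positivity)] at hb
  have hq := one_le_logRatio hT
  have h6 := le_mul_of_one_le_left (abs_nonneg ((zeroCount T : ℝ) - mainTerm T'))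
    (show 1 ≤ 2 * π by linarith [Real.pi_gt_three])
  have h4 := abs_sub_le (zeroCount T : ℝ) (mainTerm T') (mainTerm T)
  linarith [mul_le_mul_of_nonneg_left hq hD0]

/-- The increment of the main term. -/
theorem mainTerm_sub_bounds {a b : ℝ} (ha : 0 < a) (hab : a ≤ b) :
    (b - a) / (2 * π) * Real.log (a / (2 * π)) ≤ mainTerm b - mainTerm a ∧
      mainTerm b - mainTerm a ≤ (b - a) / (2 * π) * Real.log (b / (2 * π)) := by
  have hb : 0 < b := by linarith
  obtain ⟨c, hc⟩ : ∃ c, c = 2 * π := ⟨_, rfl⟩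
  have hc0 : 0 < c := hc ▸ by positivity
  have h1 := mul_le_mul_of_nonneg_left
    (Real.one_sub_inv_le_log_of_pos (div_pos hb ha)) (div_nonneg hb.le hc0.le)
  have h2 := mul_le_mul_of_nonneg_left
    (Real.log_le_sub_one_of_pos (div_pos hb ha)) (div_nonneg ha.le hc0.le)
  rw [Real.log_div hb.ne' ha.ne'] at h1 h2
  rw [show b / c * (1 - (b / a)⁻¹) = (b - a) / c by field_simp] at h1
  rw [show a / c * (b / a - 1) = (b - a) / c by field_simp] at h2
  rw [mainTerm, mainTerm, ← hc, Real.log_div ha.ne' hc0.ne', Real.log_div hb.ne' hc0.ne']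
  ring_nf at h1 h2 ⊢
  constructor <;> linarith

/-- **The gaps.** -/
theorem exists_ordinate_short : ∃ C, 0 < C ∧ (Critical → ∀ᶠ T : ℝ in atTop,
    ∃ ρ : ℂ, xiFn ρ = 0 ∧ T < ρ.im ∧ ρ.im ≤ T + C / Real.log (Real.log T)) := by
  obtain ⟨C, hC, hcount⟩ := exists_zeroCount_littlewood
  obtain ⟨A, hA⟩ : ∃ A, A = 4 * π * (3 * C + 1) := ⟨_, rfl⟩
  have hA0 : 0 < A := hA ▸ by positivity
  refine ⟨A, hA0, fun hRH => ?_⟩
  obtain ⟨T₀, hT₀⟩ := eventually_atTop.1 (hcount hRH)
  filter_upwards [eventually_ge_atTop T₀, eventually_ge_atTop (Real.exp 8),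
    (Real.tendsto_log_atTop.comp Real.tendsto_log_atTop).eventually_ge_atTop A]
    with T hT hT8 hTA
  simp only [Function.comp_apply] at hTA
  obtain ⟨hl, hll⟩ := eight_le_log hT8
  have hT9 : 9 ≤ T := le_trans (by linarith [Real.add_one_le_exp (8 : ℝ)]) hT8
  obtain ⟨h, hh⟩ : ∃ h, h = A / Real.log (Real.log T) := ⟨_, rfl⟩
  rw [← hh]
  have hh0 : 0 < h := hh ▸ by positivity
  have hh1 : h ≤ 1 := hh ▸ div_le_one_of_le₀ hTA (by linarith)
  by_contra hnone
  simp only [not_exists, not_and, not_le] at hnone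
  have hN : zeroCount (T + h) = zeroCount T := by
    refine le_antisymm ?_ (zeroCount_mono (by linarith))
    refine Finset.sum_le_sum_of_subset fun ρ hρ => ?_
    rw [Set.Finite.mem_toFinset, mem_zetaZeros_iff] at hρ ⊢
    refine ⟨hρ.1, hρ.2.1, ?_⟩
    by_contra hlt
    linarith [hnone ρ hρ.1 (not_le.1 hlt), hρ.2.2]
  have h1 := hT₀ T hT
  have h2 := hT₀ (T + h) (by linarith)
  rw [hN] at h2
  have hq : logRatio (T + h) ≤ 2 * logRatio T := by
    rw [logRatio, logRatio, mul_div_assoc']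
    have hlog : Real.log T ≤ Real.log (T + h) := Real.log_le_log (by linarith) (by linarith)
    refine div_le_div₀ (by linarith) ?_ (by linarith) (Real.log_le_log (by linarith) hlog)
    rw [show 2 * Real.log T = Real.log (T ^ 2) by rw [Real.log_pow]; norm_num]
    exact Real.log_le_log (by linarith) (by nlinarith)
  have h3 := (mainTerm_sub_bounds (show 0 < T by linarith) (show T ≤ T + h by linarith)).1
  rw [add_sub_cancel_left] at h3
  have h4 : (3 * C + 1) * logRatio T ≤ h / (2 * π) * Real.log (T / (2 * π)) := by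
    have hlπ : Real.log (2 * π) ≤ Real.log T / 2 := by
      refine le_trans ?_ (show Real.log 8 ≤ Real.log T / 2 from ?_)
      · exact Real.log_le_log (by positivity) (by linarith [Real.pi_le_four])
      · rw [show (8 : ℝ) = 2 ^ 3 by norm_num, Real.log_pow]
        push_cast
        linarith [Real.log_two_lt_d9]
    rw [Real.log_div (by linarith) (by positivity)]
    refine le_trans (le_of_eq ?_) (mul_le_mul_of_nonneg_left
      (show Real.log T / 2 ≤ Real.log T - Real.log (2 * π) by linarith) (by positivity))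
    rw [hh, hA, logRatio]
    field_simp
    ring
  have h5 := mul_le_mul_of_nonneg_left hq hC
  rw [abs_le] at h1 h2
  linarith [one_le_logRatio hT8]

/-- The multiplicity at a positive ordinate. -/
theorem exists_multiplicity_pos : ∃ C, 0 ≤ C ∧ (Critical → ∀ᶠ γ : ℝ in atTop,
    ∀ ρ : ℂ, xiFn ρ = 0 → ρ.im = γ →
      (analyticOrderNatAt xiFn ρ : ℝ) ≤ C * logRatio γ) := by
  obtain ⟨C, hC, hcount⟩ := exists_zeroCount_littlewood
  refine ⟨3 * C + 1, by positivity, fun hRH => ?_⟩
  obtain ⟨T₀, hT₀⟩ := eventually_atTop.1 (hcount hRH)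
  filter_upwards [eventually_ge_atTop (T₀ + 1), eventually_ge_atTop (Real.exp 8)]
    with γ hγ hγ8 ρ hρ hρi
  obtain ⟨hl, hll⟩ := eight_le_log hγ8
  have hγ9 : 9 ≤ γ := le_trans (by linarith [Real.add_one_le_exp (8 : ℝ)]) hγ8
  obtain ⟨η, hη⟩ : ∃ η, η = 1 / Real.log γ := ⟨_, rfl⟩
  have hη0 : 0 < η := hη ▸ by positivity
  have hη1 : η ≤ 1 := by
    rw [hη, div_le_one (by linarith)]
    linarith
  have hsplit : (analyticOrderNatAt xiFn ρ : ℝ) + zeroCount (γ - η) ≤ zeroCount γ := by
    rw [← Nat.cast_add]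
    refine Nat.cast_le.2 ?_
    rw [zeroCount_eq, zeroCount_eq, ← Finset.sum_insert (a := ρ) ?_]
    · refine Finset.sum_le_sum_of_subset fun z hz => ?_
      rw [Finset.mem_insert, Set.Finite.mem_toFinset, mem_zetaZeros_iff] at hz
      rw [Set.Finite.mem_toFinset, mem_zetaZeros_iff]
      rcases hz with rfl | hz
      · exact ⟨hρ, by linarith, hρi.le⟩
      · exact ⟨hz.1, hz.2.1, by linarith [hz.2.2]⟩
    · rw [Set.Finite.mem_toFinset, mem_zetaZeros_iff, hρi]
      rintro ⟨-, -, h⟩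
      linarith
  have h1 := hT₀ γ (by linarith)
  have h2 := hT₀ (γ - η) (by linarith)
  have hq : logRatio (γ - η) ≤ 2 * logRatio γ := by
    have hlow : Real.log γ - 1 ≤ Real.log (γ - η) := by
      have := Real.log_le_log (show 0 < γ / 2 by linarith) (show γ / 2 ≤ γ - η by linarith)
      rw [Real.log_div (by linarith) two_ne_zero] at this
      linarith [Real.log_two_lt_d9]
    have hll' : Real.log (Real.log γ) / 2 ≤ Real.log (Real.log (γ - η)) := by
      rw [← Real.log_sqrt (by linarith)]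
      refine Real.log_le_log (Real.sqrt_pos.2 (by linarith)) (le_trans ?_ hlow)
      rw [Real.sqrt_le_left (by linarith)]
      nlinarith
    rw [logRatio, logRatio, show 2 * (Real.log γ / Real.log (Real.log γ)) =
      Real.log γ / (Real.log (Real.log γ) / 2) by field_simp]
    exact div_le_div₀ (by linarith) (Real.log_le_log (by linarith) (by linarith)) (by linarith)
      hll'
  have h3 := (mainTerm_sub_bounds (show 0 < γ - η by linarith) (show γ - η ≤ γ by linarith)).2
  have h4 : (γ - (γ - η)) / (2 * π) * Real.log (γ / (2 * π)) ≤ 1 := by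
    rw [sub_sub_cancel, hη, div_mul_eq_mul_div, div_le_one (by positivity), div_mul_eq_mul_div,
      div_le_iff₀ (by linarith), one_mul, Real.log_div (by linarith) (by positivity)]
    have h5 := mul_le_mul_of_nonneg_right
      (show 1 ≤ 2 * π by linarith [Real.pi_gt_three]) (show 0 ≤ Real.log γ by linarith)
    linarith [Real.log_nonneg (show 1 ≤ 2 * π by linarith [Real.pi_gt_three])]
  have h5 := mul_le_mul_of_nonneg_left hq hC
  rw [abs_le] at h1 h2
  linarith [one_le_logRatio hγ8]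

/-- **The multiplicity.** -/
theorem exists_multiplicity : ∃ C, 0 ≤ C ∧ (Critical → ∃ T₀ : ℝ, ∀ ρ : ℂ, xiFn ρ = 0 →
    T₀ ≤ |ρ.im| → (analyticOrderNatAt riemannZeta ρ : ℝ) ≤ C * logRatio |ρ.im|) := by
  obtain ⟨C, hC, hpos⟩ := exists_multiplicity_pos
  refine ⟨C, hC, fun hRH => ?_⟩
  obtain ⟨T₀, hT₀⟩ := eventually_atTop.1 (hpos hRH)
  refine ⟨T₀, fun ρ hρ hT => ?_⟩
  obtain ⟨h0, h1⟩ := xiFn_zero_strip hρ
  rw [← analyticOrderNatAt_xiFn h0 fun h => by rw [h] at h1; simp at h1]
  rcases le_total 0 ρ.im with him | him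
  · rw [abs_of_nonneg him] at hT ⊢
    exact hT₀ _ hT ρ hρ rfl
  · rw [abs_of_nonpos him] at hT ⊢
    rw [← analyticOrderNatAt_one_sub]
    exact hT₀ _ hT (1 - ρ) (by rw [xiFn_one_sub, hρ]) (by simp)

end FA.LittlewoodArgument

end
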