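import Fermat.Agent.ZetaUpper.Inequality

/-!
# `ζ'/ζ` at the height `t`, just right of the critical line

If the zeros of `ξ` have real part `1/2`, `ℓ = log (|t| + 2)` and `u₀ = 1/2 + 1 / log ℓ`, then
`re (ξ'/ξ) (u₀ + it) ≪ ℓ`, and `ζ'/ζ (u + it) ≪ ℓ` for `u₀ ≤ u ≤ 7/4`: the derivative of `ξ'/ξ`
is at most the sum of the Poisson kernels, and the smoothed formula with `x = ℓ²` turns it into
`ζ'/ζ` itself.
-/

set_option autoImplicit false

noncomputable section

namespace FA.LittlewoodArgument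

open Complex Filter Topology MeasureTheory Set Metric FA.RiemannMangoldt FA.ExplicitFormula
open FA.LiCriterion (fracTerm summable_norm_fracTerm xiLogDeriv_sub_eq)
open FA.LindelofZeros (lineTerm pois hasSum_lineTerm)
open FA.ZetaUpper
open scoped Real ArithmeticFunction.vonMangoldt

/-- `log (|t| + 2)`. -/
def heightLog (t : ℝ) : ℝ := Real.log (|t| + 2)

/-- `1/2 + 1 / log log (|t| + 2)`. -/
def shiftLine (t : ℝ) : ℝ := 1 / 2 + 1 / Real.log (heightLog t)

variable {u u₀ t : ℝ}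

theorem two_le_log_of_le {y : ℝ} (hy : 8 ≤ y) : 2 ≤ Real.log y := by
  refine le_trans ?_ (Real.log_le_log (by norm_num) hy)
  rw [show (8 : ℝ) = 2 ^ 3 by norm_num, Real.log_pow]
  push_cast
  linarith [Real.log_two_gt_d9]

theorem seven_le_abs (ht : 8 ≤ heightLog t) : 7 ≤ |t| := by
  have h := Real.log_le_sub_one_of_pos (show 0 < |t| + 2 by positivity)
  rw [heightLog] at ht
  linarith

theorem ne_zero_of_height (ht : 8 ≤ heightLog t) : t ≠ 0 := fun h => by
  have := seven_le_abs ht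
  rw [h, abs_zero] at this
  norm_num at this

theorem shiftLine_mem (ht : 8 ≤ heightLog t) : 1 / 2 < shiftLine t ∧ shiftLine t ≤ 1 := by
  have h := two_le_log_of_le ht
  rw [shiftLine]
  refine ⟨lt_add_of_pos_right _ (by positivity), ?_⟩
  linarith [one_div_le_one_div_of_le two_pos h]

theorem sq_height_le (ht : 8 ≤ heightLog t) : heightLog t ^ 2 ≤ t ^ 4 := by
  have h7 := seven_le_abs ht
  have h1 := Real.log_le_sub_one_of_pos (show 0 < |t| + 2 by positivity)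
  have h2 : heightLog t ≤ |t| ^ 2 := by
    rw [heightLog] at *
    nlinarith
  rw [show t ^ 4 = (|t| ^ 2) ^ 2 by rw [sq_abs]; ring]
  exact pow_le_pow_left₀ (by linarith) h2 2

/-- The weight of the zeros at `x = ℓ²`. -/
theorem rpow_shiftLine (ht : 8 ≤ heightLog t) :
    (heightLog t ^ 2) ^ (1 / 2 - shiftLine t) ≤ 1 / 2 := by
  have h := two_le_log_of_le ht
  rw [Real.rpow_def_of_pos (by positivity), Real.log_pow, shiftLine,
    show ((2 : ℕ) : ℝ) * Real.log (heightLog t) * (1 / 2 - (1 / 2 + 1 / Real.log (heightLog t))) =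
      -2 by push_cast; field_simp; ring, Real.exp_neg, inv_le_comm₀ (Real.exp_pos _) one_half_pos]
  linarith [Real.add_one_le_exp (2 : ℝ)]

theorem differentiableAt_xiLogDeriv {s : ℂ} (hs : xiFn s ≠ 0) :
    DifferentiableAt ℂ xiLogDeriv s :=
  (differentiable_xiFn.analyticAt s).deriv.differentiableAt.div (differentiable_xiFn s) hs

theorem norm_fracTerm_sub_le (hRH : Critical) (h₀ : 1 / 2 < u₀) (hu : u₀ ≤ u) {h : ℝ} (hh : 0 ≤ h)
    (t : ℝ) (ρ : ℂ) :
    ‖fracTerm (((u + h : ℝ) : ℂ) + t * I) ρ - fracTerm ((u : ℂ) + t * I) ρ‖ ≤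
      h / (u₀ - 1 / 2) * lineTerm u₀ t ρ := by
  by_cases hρ : xiFn ρ = 0
  swap
  · simp [fracTerm, lineTerm, zeroWeight_eq_zero hρ]
  have hre := hRH ρ hρ
  obtain ⟨a, ha⟩ : ∃ a : ℂ, a = ((u + h : ℝ) : ℂ) + t * I - ρ := ⟨_, rfl⟩
  obtain ⟨b, hb⟩ : ∃ b : ℂ, b = (u : ℂ) + t * I - ρ := ⟨_, rfl⟩
  have har : a.re = u + h - 1 / 2 := by simp [ha, hre]
  have hbr : b.re = u - 1 / 2 := by simp [hb, hre]
  have hai : a.im = t - ρ.im := by simp [ha]
  have hbi : b.im = t - ρ.im := by simp [hb]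
  have ha0 : a ≠ 0 := fun e => by rw [e, zero_re] at har; linarith
  have hb0 : b ≠ 0 := fun e => by rw [e, zero_re] at hbr; linarith
  have h0 : 0 < u₀ - 1 / 2 := by linarith
  have hab : ‖b‖ ≤ ‖a‖ := by
    rw [Complex.norm_def, Complex.norm_def, normSq_apply, normSq_apply, har, hbr, hai, hbi]
    refine Real.sqrt_le_sqrt ?_
    nlinarith
  have hd : (u₀ - 1 / 2) ^ 2 + (t - ρ.im) ^ 2 ≤ ‖a‖ * ‖b‖ := by
    refine le_trans ?_ (mul_le_mul_of_nonneg_right hab (norm_nonneg _))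
    rw [← sq, Complex.sq_norm, normSq_apply, hbr, hbi]
    nlinarith
  rw [fracTerm, fracTerm, ← mul_sub, add_sub_add_right_eq_sub, ← ha, ← hb, inv_sub_inv ha0 hb0,
    show b - a = -(h : ℂ) by rw [ha, hb]; push_cast; ring, norm_mul, Complex.norm_natCast,
    norm_div, norm_neg, Complex.norm_real, Real.norm_eq_abs, abs_of_nonneg hh, norm_mul, lineTerm,
    pois, hre, ← mul_assoc, mul_comm _ (zeroWeight ρ : ℝ), mul_assoc]
  refine mul_le_mul_of_nonneg_left ?_ (Nat.cast_nonneg _)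
  calc h / (‖a‖ * ‖b‖) ≤ h / ((u₀ - 1 / 2) ^ 2 + (t - ρ.im) ^ 2) :=
        div_le_div_of_nonneg_left hh (by positivity) hd
    _ = _ := (div_mul_div_cancel₀ h0.ne').symm

/-- **The derivative of `ξ'/ξ`.** -/
theorem norm_deriv_xiLogDeriv_le (hRH : Critical) (h₀ : 1 / 2 < u₀) (hu : u₀ ≤ u) (t : ℝ) :
    ‖deriv xiLogDeriv ((u : ℂ) + t * I)‖ ≤
      (xiLogDeriv ((u₀ : ℂ) + t * I)).re / (u₀ - 1 / 2) := by
  obtain ⟨f, hf⟩ : ∃ f : ℝ → ℂ, f = fun v : ℝ => xiLogDeriv ((v : ℂ) + t * I) := ⟨_, rfl⟩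
  have hd : HasDerivAt f (deriv xiLogDeriv ((u : ℂ) + t * I)) u := by
    rw [hf]
    have hlin : HasDerivAt (fun z : ℂ => z + t * I) 1 (u : ℂ) := (hasDerivAt_id' _).add_const _
    simpa [Function.comp_def] using (((differentiableAt_xiLogDeriv
      (xiFn_ne_zero_of_gt hRH (by linarith) t)).hasDerivAt).comp (u : ℂ) hlin).comp_ofReal
  refine le_of_tendsto ((hasDerivWithinAt_iff_tendsto_slope' self_notMem_Ioi).1
    hd.hasDerivWithinAt).norm ?_
  filter_upwards [self_mem_nhdsWithin] with v hv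
  obtain ⟨h, hh⟩ : ∃ h, h = v - u := ⟨_, rfl⟩
  have hh0 : 0 < h := hh ▸ sub_pos.2 hv
  rw [slope, vsub_eq_sub, norm_smul, norm_inv, Real.norm_eq_abs, ← hh, abs_of_pos hh0,
    inv_mul_le_iff₀ hh0, hf]
  dsimp only
  rw [show v = u + h by rw [hh]; ring]
  have h1 := ((summable_norm_fracTerm (((u + h : ℝ) : ℂ) + t * I)).of_norm.hasSum).sub
    ((summable_norm_fracTerm ((u : ℂ) + t * I)).of_norm.hasSum)
  rw [← xiLogDeriv_sub_eq (xiFn_ne_zero_of_gt hRH (by linarith) t),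
    ← xiLogDeriv_sub_eq (xiFn_ne_zero_of_gt hRH (by linarith) t), sub_sub_sub_cancel_right] at h1
  rw [← h1.tsum_eq]
  refine (tsum_of_norm_bounded ((hasSum_lineTerm (xiFn_ne_zero_of_gt hRH h₀ t)).mul_left _)
    fun ρ => norm_fracTerm_sub_le hRH h₀ hu hh0.le t ρ).trans (le_of_eq ?_)
  ring

/-- The derivative of the Gamma factor. -/
theorem norm_deriv_gammaReg_le {s : ℂ} (h1 : 0 ≤ s.re) (h2 : s.re ≤ 2) :
    ‖deriv gammaReg s‖ ≤ 56 := by
  obtain ⟨c, hc⟩ : ∃ c : ℂ, c = ((Real.log (|s.im| + 2) / 2 : ℝ) : ℂ) := ⟨_, rfl⟩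
  have hd : DiffContOnCl ℂ (fun z => gammaReg z - c) (ball s (1 / 4)) := by
    refine DifferentiableOn.diffContOnCl fun z hz => ?_
    rw [closure_ball s (by norm_num), mem_closedBall, dist_eq_norm] at hz
    have h3 := (abs_re_le_norm _).trans hz
    rw [sub_re] at h3
    exact ((differentiableAt_gammaReg (by linarith [(abs_le.1 h3).1])).sub_const c
      ).differentiableWithinAt
  have h := Complex.norm_deriv_le_of_forall_mem_sphere_norm_le (C := 14) (by norm_num) hd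
    fun z hz => ?_
  · rw [deriv_sub_const] at h
    exact h.trans (by norm_num)
  rw [mem_sphere_iff_norm] at hz
  have h3 := (abs_re_le_norm (z - s)).trans hz.le
  have h4 := (abs_im_le_norm (z - s)).trans hz.le
  rw [sub_re, abs_le] at h3
  rw [sub_im] at h4
  have hg := FA.PairCorrelation.norm_gammaReg_sub_log_le (s := z) (by linarith) (by linarith)
  have hlog : ∀ a b : ℝ, 0 ≤ a → 0 ≤ b → a ≤ b + 1 / 4 →
      Real.log (a + 2) ≤ Real.log (b + 2) + 1 / 8 := fun a b ha hb hab => by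
    have h := Real.log_le_sub_one_of_pos (show 0 < (a + 2) / (b + 2) by positivity)
    rw [Real.log_div (by positivity) (by positivity)] at h
    have : (a + 2) / (b + 2) - 1 ≤ 1 / 8 := by
      rw [sub_le_iff_le_add, div_le_iff₀ (by positivity)]
      linarith
    linarith
  have h5 := abs_le.1 ((abs_abs_sub_abs_le_abs_sub z.im s.im).trans h4)
  have h6 := hlog |z.im| |s.im| (abs_nonneg _) (abs_nonneg _) (by linarith)
  have h7 := hlog |s.im| |z.im| (abs_nonneg _) (abs_nonneg _) (by linarith)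
  refine (norm_sub_le_norm_sub_add_norm_sub _
    ((Real.log (|z.im| + 2) / 2 : ℝ) : ℂ) _).trans ?_
  rw [hc, ← ofReal_sub, Complex.norm_real, Real.norm_eq_abs]
  have : |Real.log (|z.im| + 2) / 2 - Real.log (|s.im| + 2) / 2| ≤ 1 := by
    rw [abs_le]
    constructor <;> linarith
  linarith

theorem norm_deriv_negLogDeriv_le (hRH : Critical) (h₀ : 1 / 2 < u₀) (hu : u₀ ≤ u) (hu2 : u ≤ 2)
    (ht : 1 ≤ |t|) :
    ‖deriv negLogDeriv ((u : ℂ) + t * I)‖ ≤
      (xiLogDeriv ((u₀ : ℂ) + t * I)).re / (u₀ - 1 / 2) + 57 := by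
  obtain ⟨s, hs⟩ : ∃ s : ℂ, s = (u : ℂ) + t * I := ⟨_, rfl⟩
  have hre : s.re = u := by rw [hs, line_re]
  have him : s.im = t := by rw [hs, line_im]
  rw [← hs]
  have hne : s - 1 ≠ 0 := fun h => by
    have := congrArg Complex.im h
    rw [sub_im, him, one_im, sub_zero, zero_im] at this
    rw [this, abs_zero] at ht
    norm_num at ht
  have hd : HasDerivAt negLogDeriv
      (-deriv xiLogDeriv s + -(1 / (s - 1) ^ 2) + deriv gammaReg s) s := by
    have h1 := (differentiableAt_xiLogDeriv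
      (hs ▸ xiFn_ne_zero_of_gt hRH (by linarith) t)).hasDerivAt
    have h2 := ((hasDerivAt_id' s).sub_const 1).fun_inv hne
    have h3 := (differentiableAt_gammaReg (s := s) (by rw [hre]; linarith)).hasDerivAt
    exact ((h1.fun_neg.fun_add h2).fun_add h3).congr_deriv (by rw [neg_div])
  rw [hd.deriv]
  have h4 : ‖-(1 / (s - 1) ^ 2)‖ ≤ 1 := by
    rw [norm_neg, norm_div, norm_one, norm_pow]
    refine div_le_one_of_le₀ (one_le_pow₀ ?_) (by positivity)
    have := abs_im_le_norm (s - 1)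
    rw [sub_im, him, one_im, sub_zero] at this
    linarith
  have h5 := norm_deriv_gammaReg_le (s := s) (by rw [hre]; linarith) (by rw [hre]; linarith)
  have h6 := norm_deriv_xiLogDeriv_le hRH h₀ hu t
  rw [← hs] at h6
  refine norm_add₃_le.trans ?_
  rw [norm_neg]
  linarith

theorem rpow_neg_le_inv_sqrt {n : ℕ} (hn : 1 ≤ n) {σ : ℝ} (hσ : 1 / 2 ≤ σ) :
    (n : ℝ) ^ (-σ) ≤ (√(n : ℝ))⁻¹ := by
  rw [Real.sqrt_eq_rpow, ← Real.rpow_neg (Nat.cast_nonneg n)]
  exact Real.rpow_le_rpow_of_exponent_le (Nat.one_le_cast.2 hn) (by linarith)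

theorem norm_smoothSum_le {x : ℝ} (hx : 1 ≤ x) {s : ℂ} (hs : 1 / 2 ≤ s.re) :
    ‖smoothSum x s‖ ≤ Real.log x * ∑ n ∈ Finset.Icc 1 ⌊x⌋₊, Λ n / √(n : ℝ) := by
  rw [Finset.mul_sum]
  refine (norm_sum_le _ _).trans (Finset.sum_le_sum fun n hn => ?_)
  rw [Finset.mem_Icc] at hn
  have h1 : (1 : ℝ) ≤ n := Nat.one_le_cast.2 hn.1
  have h2 : (n : ℝ) ≤ x := (Nat.cast_le.2 hn.2).trans (Nat.floor_le (by linarith))
  have h3 : 0 ≤ Real.log (x / n) := Real.log_nonneg ((one_le_div (by linarith)).2 h2)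
  have h4 : 0 ≤ Λ n := ArithmeticFunction.vonMangoldt_nonneg
  rw [norm_mul, Complex.norm_real, Complex.norm_natCast_cpow_of_pos (by omega), neg_re,
    Real.norm_eq_abs, abs_of_nonneg (mul_nonneg h4 h3), div_eq_mul_inv (Λ n),
    show Real.log x * (Λ n * (√(n : ℝ))⁻¹) = Λ n * Real.log x * (√(n : ℝ))⁻¹ by ring]
  refine mul_le_mul (mul_le_mul_of_nonneg_left ?_ h4) (rpow_neg_le_inv_sqrt hn.1 hs) (by positivity)
    (mul_nonneg h4 (Real.log_nonneg hx))
  exact Real.log_le_log (by positivity) (div_le_self (by linarith) h1)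

/-- **`ξ'/ξ` and `ζ'/ζ` at the height `t`.** -/
theorem exists_height_bound : ∃ C, 0 ≤ C ∧ (Critical → ∀ t : ℝ, 8 ≤ heightLog t →
    (xiLogDeriv ((shiftLine t : ℂ) + t * I)).re ≤ C * heightLog t ∧
      ∀ u : ℝ, shiftLine t ≤ u → u ≤ 7 / 4 →
        ‖negLogDeriv ((u : ℂ) + t * I)‖ ≤ C * heightLog t) := by
  obtain ⟨C, hC, hform⟩ := exists_smooth_formula
  obtain ⟨K, hK, hsum⟩ := exists_sum_div_sqrt_le
  refine ⟨20 + 8 * K + 2 * C, by positivity, fun hRH t ht => ?_⟩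
  obtain ⟨hs0, hs1⟩ := shiftLine_mem ht
  have h7 := seven_le_abs ht
  have ht1 : 1 ≤ |t| := by linarith
  obtain ⟨l, hl⟩ : ∃ l, l = heightLog t := ⟨_, rfl⟩
  obtain ⟨m, hm⟩ : ∃ m, m = Real.log l := ⟨_, rfl⟩
  obtain ⟨F, hF⟩ : ∃ F, F = (xiLogDeriv ((shiftLine t : ℂ) + t * I)).re := ⟨_, rfl⟩
  rw [← hl] at ht ⊢
  rw [← hF]
  have hm2 : 2 ≤ m := hm ▸ two_le_log_of_le ht
  have hF0 : 0 ≤ F := hF ▸ re_xiLogDeriv_line_nonneg hRH hs0 t
  have hgap : shiftLine t - 1 / 2 = 1 / m := by rw [shiftLine, ← hl, ← hm]; ring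
  have key : ∀ u : ℝ, shiftLine t ≤ u → u ≤ 7 / 4 →
      2 * m * ‖negLogDeriv ((u : ℂ) + t * I)‖ ≤ 3 / 2 * (m * F) + 2 * m * (K * l) + 57 + C := by
    intro u hu hu2
    obtain ⟨s, hs⟩ : ∃ s : ℂ, s = (u : ℂ) + t * I := ⟨_, rfl⟩
    have h1 := hform (l ^ 2) u t (one_le_pow₀ (by linarith)) (by linarith) hu2 ht1
      (hl ▸ sq_height_le (hl ▸ ht)) (xiFn_ne_zero_of_gt hRH (by linarith) t)
    have h2 := norm_deriv_negLogDeriv_le hRH hs0 hu (by linarith) ht1
    have h3 := norm_tsum_zeroKer_le hRH (x := l ^ 2) (one_le_pow₀ (by linarith)) hs0 hu t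
    have h4 := norm_smoothSum_le (x := l ^ 2) (s := s) (one_le_pow₀ (by linarith))
      (by rw [hs, line_re]; linarith)
    rw [← hs] at h1 h2 h3 ⊢
    rw [← hF, hgap, div_div_eq_mul_div, div_one] at h2
    rw [← hF, hgap, div_div_eq_mul_div, div_one] at h3
    have h5 : (l ^ 2) ^ (1 / 2 - u) ≤ 1 / 2 := by
      refine le_trans (Real.rpow_le_rpow_of_exponent_le (one_le_pow₀ (by linarith))
        (show 1 / 2 - u ≤ 1 / 2 - shiftLine t by linarith)) ?_
      rw [hl]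
      exact rpow_shiftLine (hl ▸ ht)
    have h6 : (l ^ 2) ^ (1 / 2 - u) * m * F ≤ 1 / 2 * (m * F) := by
      rw [mul_assoc]
      exact mul_le_mul_of_nonneg_right h5 (by positivity)
    have h8 : Real.log (l ^ 2) = 2 * m := by rw [Real.log_pow, hm]; norm_num
    rw [h8] at h1 h4
    have h9 : 2 * m * ∑ n ∈ Finset.Icc 1 ⌊l ^ 2⌋₊, Λ n / √(n : ℝ) ≤ 2 * m * (K * l) := by
      refine mul_le_mul_of_nonneg_left ((hsum _).trans (mul_le_mul_of_nonneg_left ?_ hK))
        (by linarith)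
      rw [← Real.sqrt_sq (show 0 ≤ l by linarith)]
      exact Real.sqrt_le_sqrt ((Nat.floor_le (sq_nonneg _)).trans_eq (by
        rw [Real.sqrt_sq (show 0 ≤ l by linarith)]))
    calc 2 * m * ‖negLogDeriv s‖ = ‖((2 * m : ℝ) : ℂ) * negLogDeriv s‖ := by
          rw [norm_mul, Complex.norm_real, Real.norm_eq_abs, abs_of_pos (by linarith)]
      _ = ‖((((2 * m : ℝ) : ℂ) * negLogDeriv s + deriv negLogDeriv s -
            ∑' ρ, zeroKer (l ^ 2) s ρ) - smoothSum (l ^ 2) s) + -deriv negLogDeriv s +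
            ∑' ρ, zeroKer (l ^ 2) s ρ + smoothSum (l ^ 2) s‖ := by
          congr 1; ring
      _ ≤ _ := by
          refine (norm_add_le _ _).trans ((add_le_add norm_add₃_le le_rfl).trans ?_)
          rw [norm_neg]
          linarith
  obtain ⟨X, hX⟩ : ∃ X, X = ‖negLogDeriv ((shiftLine t : ℂ) + t * I)‖ := ⟨_, rfl⟩
  have k0 := key _ le_rfl (by linarith)
  rw [← hX] at k0
  have hre := re_negLogDeriv_le (u := shiftLine t) hs0.le (by linarith) ht1
  rw [← hF, ← heightLog, ← hl] at hre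
  have hre2 := neg_le_of_abs_le ((Complex.abs_re_le_norm _).trans hX.ge)
  have hFX : F ≤ l / 2 + 14 + X := by linarith
  have k1 : X ≤ 3 * (l / 2 + 14) + 4 * (K * l) + (57 + C) := by
    refine le_of_mul_le_mul_left ?_ (show 0 < m / 2 by linarith)
    have := mul_le_mul_of_nonneg_left hFX (show 0 ≤ 3 / 2 * m by linarith)
    have : 57 + C ≤ m / 2 * (57 + C) := le_mul_of_one_le_left (by linarith) (by linarith)
    linarith
  have hFl : F ≤ (20 + 8 * K + 2 * C) * l := by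
    have : 8 * C ≤ C * l := by rw [mul_comm]; exact mul_le_mul_of_nonneg_left ht hC
    linarith [mul_nonneg hK (show 0 ≤ l by linarith)]
  refine ⟨hFl, fun u hu hu2 => ?_⟩
  have k2 : ‖negLogDeriv ((u : ℂ) + t * I)‖ ≤ 3 / 4 * F + K * l + (57 + C) := by
    refine le_of_mul_le_mul_left ?_ (show 0 < 2 * m by linarith)
    have : 57 + C ≤ 2 * m * (57 + C) := le_mul_of_one_le_left (by linarith) (by linarith)
    linarith [key u hu hu2]
  have : 8 * C ≤ C * l := by rw [mul_comm]; exact mul_le_mul_of_nonneg_left ht hC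
  linarith [mul_nonneg hK (show 0 ≤ l by linarith)]

end FA.LittlewoodArgument

end
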