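import Fermat.Agent.LittlewoodArgument.Argument
import Fermat.Agent.VonKoch.Main

/-!
# `1 / ζ` right of the critical line under the Riemann hypothesis

For `re s ≥ 1/2 + 1/M`, `M ≥ 2`, `|1 / ζ s| ≤ exp (C (e^M / M + log (|im s| + 2) / M))`: right of
`u₀` the logarithm is the integral of `ζ'/ζ`, left of it it loses the logarithm of
`(u₀ - 1/2) / (re s - 1/2)` times the Poisson sum, and at bounded height the zeros are finite.
-/

set_option autoImplicit false

noncomputable section

namespace FA.LittlewoodArgument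

open Complex Filter Topology MeasureTheory Set FA.RiemannMangoldt FA.ExplicitFormula
open FA.LindelofZeros (lineTerm pois hasSum_lineTerm)
open FA.SelbergCLT (logZeta hasDerivAt_logZeta)
open FA.VonKoch (invZeta invZeta_eq moebius_series)
open FA.ZetaUpper
open scoped Real ArithmeticFunction.Moebius

variable {u u₀ t : ℝ}

/-- `1 / ζ` for `re s ≥ 7/4`. -/
theorem exists_invZeta_far : ∃ K, 1 ≤ K ∧ ∀ s : ℂ, 7 / 4 ≤ s.re → ‖invZeta s‖ ≤ K := by
  have hsum : Summable fun n : ℕ => (n : ℝ) ^ (-(7 / 4) : ℝ) :=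
    Real.summable_nat_rpow.2 (by norm_num)
  refine ⟨max 1 (∑' n : ℕ, (n : ℝ) ^ (-(7 / 4) : ℝ)), le_max_left _ _, fun s hs => ?_⟩
  rw [← (moebius_series (by linarith)).2, LSeries]
  refine (tsum_of_norm_bounded hsum.hasSum fun n => ?_).trans (le_max_right _ _)
  rw [LSeries.norm_term_eq]
  split_ifs with hn
  · exact Real.rpow_nonneg (Nat.cast_nonneg _) _
  · have h1 : (1 : ℝ) ≤ n := Nat.one_le_cast.2 (Nat.one_le_iff_ne_zero.2 hn)
    have hp : 0 < (n : ℝ) ^ s.re := Real.rpow_pos_of_pos (by linarith) _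
    calc _ ≤ 1 / (n : ℝ) ^ s.re := div_le_div_of_nonneg_right
          (by rw [Complex.norm_intCast]; exact_mod_cast ArithmeticFunction.abs_moebius_le_one)
          hp.le
      _ = (n : ℝ) ^ (-s.re) := by rw [Real.rpow_neg (by linarith), one_div]
      _ ≤ _ := Real.rpow_le_rpow_of_exponent_le h1 (by linarith)

/-- The Poisson sum closer to the line. -/
theorem re_xiLogDeriv_le_div (hRH : Critical) (hu : 1 / 2 < u) (hu₀ : u ≤ u₀) (t : ℝ) :
    (xiLogDeriv ((u : ℂ) + t * I)).re ≤
      (u₀ - 1 / 2) / (u - 1 / 2) * (xiLogDeriv ((u₀ : ℂ) + t * I)).re := by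
  refine hasSum_le (fun ρ => ?_) (hasSum_lineTerm (xiFn_ne_zero_of_gt hRH hu t))
    ((hasSum_lineTerm (xiFn_ne_zero_of_gt hRH (by linarith) t)).mul_left _)
  by_cases hρ : xiFn ρ = 0
  swap
  · simp [lineTerm, zeroWeight_eq_zero hρ]
  rw [lineTerm, lineTerm, hRH ρ hρ, ← mul_assoc, mul_comm _ (zeroWeight ρ : ℝ), mul_assoc]
  refine mul_le_mul_of_nonneg_left ?_ (Nat.cast_nonneg _)
  obtain ⟨a, ha⟩ : ∃ a, a = u - 1 / 2 := ⟨_, rfl⟩
  obtain ⟨b, hb⟩ : ∃ b, b = u₀ - 1 / 2 := ⟨_, rfl⟩
  have ha0 : 0 < a := by linarith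
  have hab : a ≤ b := by linarith
  have hb0 : 0 < b := by linarith
  rw [← ha, ← hb, pois, pois, div_mul_div_comm, div_le_div_iff₀ (by positivity) (by positivity)]
  have := mul_nonneg (sq_nonneg (t - ρ.im))
    (sub_nonneg.2 (pow_le_pow_left₀ ha0.le hab 2))
  linarith

/-- **`log |ζ|` from below, away from small heights.** -/
theorem exists_logZeta_lower : ∃ C, 0 ≤ C ∧ (Critical → ∀ t : ℝ, 8 ≤ heightLog t →
    ∀ σ M : ℝ, 2 ≤ M → 1 / 2 + 1 / M ≤ σ → σ ≤ 7 / 4 →
      -logZeta σ t ≤ C * (Real.exp M / M + heightLog t / M)) := by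
  obtain ⟨C₁, hC₁, hbound⟩ := exists_height_bound
  obtain ⟨C₂, hC₂, hint⟩ := exists_integral_bound
  obtain ⟨K, hK, hfar⟩ := exists_invZeta_far
  refine ⟨Real.log K + C₁ + C₂ + 14, by have := Real.log_nonneg hK; positivity,
    fun hRH t ht σ M hM hσ hσ2 => ?_⟩
  obtain ⟨hs0, hs1⟩ := shiftLine_mem ht
  have ht0 := ne_zero_of_height ht
  have ht1 : 1 ≤ |t| := by linarith [seven_le_abs ht]
  obtain ⟨hF, -⟩ := hbound hRH t ht
  obtain ⟨l, hl⟩ : ∃ l, l = heightLog t := ⟨_, rfl⟩
  obtain ⟨m, hm⟩ : ∃ m, m = Real.log l := ⟨_, rfl⟩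
  obtain ⟨F, hFdef⟩ : ∃ F, F = (xiLogDeriv ((shiftLine t : ℂ) + t * I)).re := ⟨_, rfl⟩
  rw [← hl, ← hFdef] at hF
  rw [← hl]
  have hl8 : 8 ≤ l := hl ▸ ht
  have hm2 : 2 ≤ m := hm ▸ two_le_log_of_le hl8
  have hgap : shiftLine t - 1 / 2 = 1 / m := by rw [shiftLine, ← hl, ← hm]; ring
  have hq : 1 ≤ l / m := by
    rw [le_div_iff₀ (by linarith), one_mul, hm]
    exact Real.log_le_self (by linarith)
  have hK0 := Real.log_nonneg hK
  have hright : ∀ v : ℝ, shiftLine t ≤ v → v ≤ 7 / 4 →
      -logZeta v t ≤ (Real.log K + C₂) * (l / m) := by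
    intro v hv hv2
    have hI := hint hRH t ht v hv hv2
    rw [← hl, ← hm] at hI
    have hni := intervalIntegrable_negLogDeriv hRH ht0 (show 1 / 2 < v by linarith)
      (show v ≤ 2 by linarith)
    have hd : ∀ w ∈ uIcc v 2, HasDerivAt (fun y => -logZeta y t)
        (negLogDeriv ((w : ℂ) + t * I)).re w := fun w hw => by
      rw [uIcc_of_le (by linarith)] at hw
      have hw0 : 1 / 2 < w := by linarith [hw.1]
      refine (hasDerivAt_logZeta (line_ne_one ht0 w)
        (zeta_ne_zero_of_gt hRH hw0 ht0)).fun_neg.congr_deriv ?_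
      rw [negLogDeriv_line hRH hw0 ht0, neg_re]
    have e := intervalIntegral.integral_eq_sub_of_hasDerivAt hd ⟨hni.1.re, hni.2.re⟩
    rw [show (∫ w in v..2, (negLogDeriv ((w : ℂ) + t * I)).re) =
      (∫ w in v..2, negLogDeriv ((w : ℂ) + t * I)).re from
        reCLM.intervalIntegral_comp_comm hni] at e
    have h2 : -logZeta 2 t ≤ Real.log K := by
      have h := hfar (((2 : ℝ) : ℂ) + t * I) (by rw [line_re]; norm_num)
      rw [invZeta_eq (line_ne_one ht0 _), norm_inv] at h
      rw [logZeta, ← Real.log_inv]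
      exact Real.log_le_log (inv_pos.2 (norm_pos_iff.2
        (zeta_ne_zero_of_gt hRH (by norm_num) ht0))) h
    have h3 := (neg_le_abs _).trans ((Complex.abs_re_le_norm _).trans hI)
    linarith [mul_le_mul_of_nonneg_left hq hK0]
  have hexpM : 1 ≤ Real.exp M / M := by
    rw [le_div_iff₀ (by linarith), one_mul]
    linarith [Real.add_one_le_exp M]
  rcases le_total M m with hMm | hmM
  · have h1 : shiftLine t ≤ σ := by
      linarith [one_div_le_one_div_of_le (show 0 < M by linarith) hMm]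
    have h2 : l / m ≤ l / M := div_le_div_of_nonneg_left (by linarith) (by linarith) hMm
    refine (hright σ h1 hσ2).trans ?_
    refine mul_le_mul (by linarith) (by linarith) (by linarith) (by positivity)
  obtain ⟨r, hr⟩ : ∃ r, r = M / m := ⟨_, rfl⟩
  have hr1 : 1 ≤ r := hr ▸ (one_le_div (by linarith)).2 hmM
  have hkey : l / m * r ≤ Real.exp M / M := by
    have h1 : r * r ≤ Real.exp (M - m) := by
      have h2 : r ≤ Real.exp ((M - m) / 2) := by
        refine le_trans ?_ (Real.add_one_le_exp _)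
        rw [hr, div_le_iff₀ (by linarith)]
        nlinarith [mul_le_mul_of_nonneg_right hm2 (show 0 ≤ M - m by linarith)]
      refine (mul_le_mul h2 h2 (by linarith) (Real.exp_pos _).le).trans (le_of_eq ?_)
      rw [← Real.exp_add]
      ring_nf
    rw [le_div_iff₀ (by linarith)]
    calc l / m * r * M = l * (r * r) := by rw [hr]; field_simp
      _ ≤ l * Real.exp (M - m) := mul_le_mul_of_nonneg_left h1 (by linarith)
      _ = _ := by rw [Real.exp_sub, hm, Real.exp_log (by linarith)]; field_simp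
  have hq1 : l / m ≤ l / m * r := le_mul_of_one_le_right (by linarith) hr1
  have hlM : 0 ≤ l / M := by positivity
  rcases le_total (shiftLine t) σ with h1 | h1
  · refine (hright σ h1 hσ2).trans ?_
    refine mul_le_mul (by linarith) (by linarith) (by linarith) (by positivity)
  have hσ0 : 1 / 2 < σ := by linarith [one_div_pos.2 (show 0 < M by linarith)]
  obtain ⟨a, ha⟩ : ∃ a, a = 1 / m * F := ⟨_, rfl⟩
  have hd : ∀ v : ℝ, 1 / 2 < v → HasDerivAt
      (fun w => logZeta w t - a * Real.log (w - 1 / 2) - 14 * w)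
      ((deriv riemannZeta ((v : ℂ) + t * I) / riemannZeta ((v : ℂ) + t * I)).re -
        a * (1 / (v - 1 / 2)) - 14) v := fun v hv => by
    exact ((hasDerivAt_logZeta (line_ne_one ht0 v) (zeta_ne_zero_of_gt hRH hv ht0)).fun_sub
      ((((hasDerivAt_id' v).sub_const (1 / 2)).log (by linarith)).const_mul a)).fun_sub
        (((hasDerivAt_id' v).const_mul 14).congr_deriv (mul_one _))
  have hanti : AntitoneOn (fun w => logZeta w t - a * Real.log (w - 1 / 2) - 14 * w)
      (Icc σ (shiftLine t)) := by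
    refine antitoneOn_of_hasDerivWithinAt_nonpos (convex_Icc _ _)
      (fun v hv => (hd v (by linarith [hv.1])).continuousAt.continuousWithinAt)
      (fun v hv => (hd v (by linarith [(interior_subset hv).1])).hasDerivWithinAt) fun v hv => ?_
    obtain ⟨hv1, hv2⟩ := interior_subset hv
    have hv0 : 1 / 2 < v := by linarith
    have h2 := re_xiLogDeriv_le_div hRH hv0 hv2 t
    rw [hgap, ← hFdef] at h2
    have h3 : (deriv riemannZeta ((v : ℂ) + t * I) / riemannZeta ((v : ℂ) + t * I)).re ≤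
        (xiLogDeriv ((v : ℂ) + t * I)).re + 14 := by
      rw [show deriv riemannZeta ((v : ℂ) + t * I) / riemannZeta ((v : ℂ) + t * I) =
          -negLogDeriv ((v : ℂ) + t * I) by rw [negLogDeriv_line hRH hv0 ht0, neg_neg],
        negLogDeriv]
      simp only [neg_re, add_re, neg_add_rev, neg_neg]
      have hg := (Complex.abs_re_le_norm _).trans (FA.PairCorrelation.norm_gammaReg_sub_log_le
        (s := (v : ℂ) + t * I) (by rw [line_re]; linarith) (by rw [line_re]; linarith))
      rw [sub_re, ofReal_re, line_im] at hg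
      have hi := (Complex.abs_re_le_norm _).trans
        (norm_inv_sub_one_le (s := (v : ℂ) + t * I) one_pos (Or.inl (by rwa [line_im])))
      rw [one_div_one] at hi
      rw [abs_le] at hg hi
      linarith [Real.log_nonneg (show 1 ≤ |t| + 2 by linarith)]
    rw [show 1 / m / (v - 1 / 2) * F = a * (1 / (v - 1 / 2)) by rw [ha]; ring] at h2
    linarith
  have hend := hanti (left_mem_Icc.2 h1) (right_mem_Icc.2 h1) h1
  simp only at hend
  rw [hgap] at hend
  have hF0 : 0 ≤ F := hFdef ▸ re_xiLogDeriv_line_nonneg hRH hs0 t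
  have ha0 : 0 ≤ a := by rw [ha]; positivity
  have hlog : Real.log (1 / m) - Real.log (σ - 1 / 2) ≤ r := by
    have h2 : Real.log (1 / M) ≤ Real.log (σ - 1 / 2) :=
      Real.log_le_log (by positivity) (by linarith)
    have h3 := Real.log_le_self (show 0 ≤ r by linarith)
    rw [hr, Real.log_div (by linarith) (by linarith)] at h3
    rw [one_div, Real.log_inv] at h2 ⊢
    rw [hr]
    linarith
  have hloss : a * (Real.log (1 / m) - Real.log (σ - 1 / 2)) ≤ C₁ * (l / m * r) := by
    refine (mul_le_mul_of_nonneg_left hlog ha0).trans ?_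
    rw [ha, show C₁ * (l / m * r) = 1 / m * (C₁ * l) * r by ring]
    exact mul_le_mul_of_nonneg_right (mul_le_mul_of_nonneg_left hF (by positivity)) (by linarith)
  have h4 := hright _ le_rfl (show shiftLine t ≤ 7 / 4 by linarith)
  linarith [mul_le_mul_of_nonneg_left hkey hC₁,
    mul_le_mul_of_nonneg_left (hq1.trans hkey) (show 0 ≤ Real.log K + C₂ by linarith),
    mul_nonneg (show 0 ≤ Real.log K + C₁ + C₂ + 14 by linarith) hlM]

/-- **Bounded height.** -/
theorem exists_invZeta_box (T : ℝ) : ∃ C, 0 ≤ C ∧ (Critical → ∀ s : ℂ, ∀ M : ℝ, 2 ≤ M →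
    1 / 2 + 1 / M ≤ s.re → s.re ≤ 2 → |s.im| ≤ T → ‖invZeta s‖ ≤ Real.exp (C * M)) := by
  obtain ⟨Z, h, hh, he, hZ, hne, -⟩ := exists_xi_factor (R := |T| + 4) (by positivity)
  have hball : ∀ s ∈ Icc (1 / 2 : ℝ) 2 ×ℂ Icc (-T) T, s ∈ Metric.closedBall (2 : ℂ) (|T| + 4) :=
    fun s hs => by
    rw [mem_reProdIm] at hs
    rw [Metric.mem_closedBall, dist_eq_norm]
    refine (norm_le_abs_re_add_abs_im _).trans ?_
    simp only [sub_re, sub_im, re_ofNat, im_ofNat, sub_zero]
    have h2 : |s.im| ≤ |T| := (abs_le.2 hs.2).trans (le_abs_self T)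
    rw [abs_of_nonpos (by linarith [hs.1.2])]
    linarith [hs.1.1]
  obtain ⟨K, hK⟩ := (IsCompact.reProdIm isCompact_Icc isCompact_Icc :
      IsCompact (Icc (1 / 2 : ℝ) 2 ×ℂ Icc (-T) T)).exists_bound_of_continuousOn
    (f := fun s => (s - 1) * s * Gammaℝ s / (2 * h s)) fun s hs => by
      have h0 : 0 < s.re := by linarith [(mem_reProdIm.1 hs).1.1]
      exact (((continuousAt_id.sub continuousAt_const).mul continuousAt_id).mul
        (differentiableAt_realGamma h0).continuousAt).div
          (continuousAt_const.mul (hh s).continuousAt)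
          (mul_ne_zero two_ne_zero (hne s (hball s hs))) |>.continuousWithinAt
  refine ⟨max K 0 + Multiset.card Z, by positivity, fun hRH s M hM hs hs2 him => ?_⟩
  have hM0 : 0 < 1 / M := by positivity
  have hmem : s ∈ Icc (1 / 2 : ℝ) 2 ×ℂ Icc (-T) T :=
    mem_reProdIm.2 ⟨⟨by linarith, hs2⟩, abs_le.1 him⟩
  have hprod : (1 / M) ^ Multiset.card Z ≤ ‖rootProd Z s‖ := by
    clear hK he hne hball
    induction Z using Multiset.induction_on with
    | empty => simp [rootProd]
    | cons ρ Z ih =>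
      rw [rootProd, Multiset.map_cons, Multiset.prod_cons, ← rootProd, norm_mul,
        Multiset.card_cons, pow_succ']
      refine mul_le_mul ?_ (ih fun x hx => hZ x (Multiset.mem_cons_of_mem hx)) (by positivity)
        (norm_nonneg _)
      have := (le_abs_self _).trans (abs_re_le_norm (s - ρ))
      rw [sub_re, hRH ρ (hZ ρ (Multiset.mem_cons_self _ _))] at this
      linarith
  have hs0 : s ≠ 0 := fun e => by rw [e, zero_re] at hs; linarith
  have hG := Gammaℝ_ne_zero_of_re_pos (show 0 < s.re by linarith)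
  have hr0 : rootProd Z s ≠ 0 := norm_pos_iff.1 (lt_of_lt_of_le (by positivity) hprod)
  have hh0 := hne s (hball s hmem)
  have e : invZeta s = (s - 1) * s * Gammaℝ s / (2 * h s) / rootProd Z s := by
    have h1 := he s
    rw [xiFn_eq (by linarith)] at h1
    have h2 : FA.VonKoch.invZeta s = (s - 1) / riemannZeta₁ s := rfl
    have h3 : riemannZeta₁ s = 2 * h s * rootProd Z s / (s * Gammaℝ s) := by
      rw [eq_div_iff (mul_ne_zero hs0 hG)]
      linear_combination 2 * h1
    rw [h2, h3]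
    field_simp
  rw [e, norm_div, add_mul, Real.exp_add, div_eq_mul_inv]
  refine mul_le_mul ((hK s hmem).trans ?_) ?_ (by positivity) (Real.exp_pos _).le
  · refine le_trans ?_ (Real.add_one_le_exp _)
    linarith [le_max_left K 0, le_mul_of_one_le_right (le_max_right K 0)
      (show 1 ≤ M by linarith)]
  · rw [Real.exp_nat_mul]
    refine (inv_anti₀ (by positivity) hprod).trans ?_
    rw [← inv_pow, one_div, inv_inv]
    exact pow_le_pow_left₀ (by linarith) (by linarith [Real.add_one_le_exp M]) _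

/-- **The bound for `1 / ζ`.** -/
theorem exists_invZeta_bound : ∃ C, 0 ≤ C ∧ (Critical → ∀ (s : ℂ) (M : ℝ), 2 ≤ M →
    1 / 2 + 1 / M ≤ s.re →
      ‖invZeta s‖ ≤ Real.exp (C * (Real.exp M / M + heightLog s.im / M))) := by
  obtain ⟨C₁, hC₁, hlow⟩ := exists_logZeta_lower
  obtain ⟨C₂, hC₂, hbox⟩ := exists_invZeta_box (Real.exp 8)
  obtain ⟨K, hK, hfar⟩ := exists_invZeta_far
  refine ⟨C₁ + 2 * C₂ + K, by positivity, fun hRH s M hM hs => ?_⟩
  have hMexp : M ≤ 2 * (Real.exp M / M) := by
    rw [mul_div_assoc', le_div_iff₀ (by linarith)]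
    nlinarith [Real.quadratic_le_exp_of_nonneg (show 0 ≤ M by linarith)]
  have hA : 1 ≤ Real.exp M / M := by linarith
  have hB : 0 ≤ heightLog s.im / M :=
    div_nonneg (Real.log_nonneg (by linarith [abs_nonneg s.im])) (by linarith)
  obtain ⟨A, hAdef⟩ : ∃ A, A = Real.exp M / M + heightLog s.im / M := ⟨_, rfl⟩
  have hA1 : 1 ≤ A := by linarith
  rw [← hAdef, add_mul, add_mul]
  have n1 : 0 ≤ C₁ * A := by positivity
  have n2 : 0 ≤ C₂ * A := by positivity
  have n3 : K ≤ K * A := le_mul_of_one_le_right (by linarith) hA1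
  rcases le_total (7 / 4) s.re with h1 | h1
  · refine (hfar s h1).trans (le_trans ?_ (Real.add_one_le_exp _))
    linarith
  rcases le_total 8 (heightLog s.im) with h2 | h2
  · have ht0 := ne_zero_of_height h2
    have h3 := hlow hRH s.im h2 s.re M hM hs h1
    rw [← hAdef] at h3
    have hσ0 : 1 / 2 < s.re := by linarith [one_div_pos.2 (show 0 < M by linarith)]
    have hz : riemannZeta s ≠ 0 := by simpa using zeta_ne_zero_of_gt hRH hσ0 ht0
    have hne : s ≠ 1 := fun e => ht0 (by rw [e, one_im])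
    rw [invZeta_eq hne, norm_inv, ← Real.exp_log (norm_pos_iff.2 hz), ← Real.exp_neg]
    rw [logZeta, re_add_im] at h3
    exact Real.exp_le_exp.2 (by linarith)
  · have h3 : |s.im| ≤ Real.exp 8 := by
      have := Real.exp_le_exp.2 h2
      rw [heightLog, Real.exp_log (by positivity)] at this
      linarith
    refine (hbox hRH s M hM hs (by linarith) h3).trans (Real.exp_le_exp.2 ?_)
    have h4 : C₂ * M ≤ C₂ * (2 * A) := mul_le_mul_of_nonneg_left (by linarith) hC₂
    linarith

end FA.LittlewoodArgument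

end
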